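/-
P-MW row 879 (MW-E-BC): `BaseChangeStatement` from `FixedStatement` and `DescentStatement`.
`ℚ̄ ⊗_ℚ R ≃ R̄`, compatibly with the pole filtrations.
-/
import Fermat.Agent.H39.MW.ModStatements
import Fermat.Agent.H69.CoeffMapIndep

set_option autoImplicit false
set_option linter.unusedSectionVars false
set_option linter.unusedVariables false
set_option linter.style.haveILetI false
set_option synthInstance.maxHeartbeats 200000
set_option maxHeartbeats 1000000

noncomputable section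

open AlgebraicCurve ModularCurve TensorProduct Module
open Fermat.Agent.H92.MW Fermat.Agent.H39.MW

namespace Fermat.Agent.H50

variable {F₀ : IntermediateField ℚ (LaurentSeries ℚ)} (P₀ : Place QQbar (FB F₀))

/-- the algebra homomorphism `ℚ̄ ⊗ R → R̄` -/
def bcTheta : QQbar ⊗[ℚ] ↥(ratHolo P₀) →ₐ[QQbar] ↥(holo P₀) :=
  Algebra.TensorProduct.lift (Algebra.ofId QQbar ↥(holo P₀)) (embHolo P₀).toRatAlgHom
    (fun _ _ => Commute.all _ _)

theorem bcTheta_tmul (a : QQbar) (f : ↥(ratHolo P₀)) :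
    bcTheta P₀ (a ⊗ₜ[ℚ] f) = algebraMap QQbar ↥(holo P₀) a * embHolo P₀ f := by
  unfold bcTheta
  rw [Algebra.TensorProduct.lift_tmul]
  rfl

/-- `Θ` followed by the inclusion `R̄ ⊆ F̄` -/
def bcPsi : QQbar ⊗[ℚ] ↥(ratHolo P₀) →ₗ[QQbar] FB F₀ :=
  (holo P₀).val.toLinearMap ∘ₗ (bcTheta P₀).toLinearMap

theorem bcPsi_apply (x : QQbar ⊗[ℚ] ↥(ratHolo P₀)) :
    bcPsi P₀ x = ((bcTheta P₀ x : ↥(holo P₀)) : FB F₀) := rfl

theorem bcPsi_tmul (a : QQbar) (f : ↥(ratHolo P₀)) :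
    bcPsi P₀ (a ⊗ₜ[ℚ] f) = algebraMap QQbar (FB F₀) a * emb F₀ (f : ↥F₀) := by
  rw [bcPsi_apply, bcTheta_tmul]
  rfl

theorem bc_coe_smul (c : QQbar) (z : FB F₀) :
    ((c • z : FB F₀) : LaurentSeries QQbar) = c • (z : LaurentSeries QQbar) := by
  rw [Algebra.smul_def, MulMemClass.coe_mul]
  show algebraMap QQbar (LaurentSeries QQbar) c * _ = _
  rw [algebraMap_laurentSeries_eq_single, ← HahnSeries.C_apply, HahnSeries.C_mul_eq_smul]

/-- `Θ` followed by the inclusion into `ℚ̄((q))` -/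
def bcChi : QQbar ⊗[ℚ] ↥(ratHolo P₀) →ₗ[QQbar] LaurentSeries QQbar where
  toFun x := ((bcPsi P₀ x : FB F₀) : LaurentSeries QQbar)
  map_add' x y := by rw [map_add]; rfl
  map_smul' c x := by rw [map_smul, bc_coe_smul]; rfl

theorem bcChi_apply (x : QQbar ⊗[ℚ] ↥(ratHolo P₀)) :
    bcChi P₀ x = ((bcPsi P₀ x : FB F₀) : LaurentSeries QQbar) := rfl

theorem bcChi_injective : Function.Injective (bcChi P₀) := by
  classical
  set B₀ := Module.Free.chooseBasis ℚ ↥(ratHolo P₀) with hB₀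
  set B := Algebra.TensorProduct.basis QQbar B₀ with hB
  let φ : ↥(ratHolo P₀) →ₗ[ℚ] LaurentSeries ℚ :=
    AddMonoidHom.toRatLinearMap
      ⟨⟨fun f => (((f : ↥(ratHolo P₀)) : ↥F₀) : LaurentSeries ℚ), rfl⟩, fun _ _ => rfl⟩
  have hφ : Function.Injective φ := fun x y h => Subtype.ext (Subtype.ext h)
  have hli0 : LinearIndependent ℚ
      (fun i => (((B₀ i : ↥(ratHolo P₀)) : ↥F₀) : LaurentSeries ℚ)) :=
    B₀.linearIndependent.map' φ (LinearMap.ker_eq_bot.2 hφ)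
  have hli := Fermat.Agent.H69.linearIndependent_coeffMap (algebraMap ℚ QQbar) _ hli0
  have hχB : (fun i => bcChi P₀ (B i))
      = fun i => coeffMap (algebraMap ℚ QQbar)
          (((B₀ i : ↥(ratHolo P₀)) : ↥F₀) : LaurentSeries ℚ) := by
    funext i
    have h1 : B i = (1 : QQbar) ⊗ₜ[ℚ] B₀ i := Algebra.TensorProduct.basis_apply B₀ i
    have h2 : bcPsi P₀ (B i) = emb F₀ ((B₀ i : ↥(ratHolo P₀)) : ↥F₀) := by
      rw [h1, bcPsi_tmul, map_one, one_mul]
    rw [bcChi_apply, h2]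
    rfl
  have h3 := B.injective_constr_of_linearIndependent (R₂ := QQbar) (hχB ▸ hli)
  rwa [B.constr_self QQbar (bcChi P₀)] at h3

theorem bcPsi_injective : Function.Injective (bcPsi P₀) := fun x y h =>
  bcChi_injective P₀ (congrArg (fun z : FB F₀ => (z : LaurentSeries QQbar)) h)

theorem bcTheta_injective : Function.Injective (bcTheta P₀) := fun x y h =>
  bcPsi_injective P₀ (congrArg (fun z : ↥(holo P₀) => (z : FB F₀)) h)

/-- the space `L(m P₀)` inside `F̄` -/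
def bcV (m : ℕ) : Submodule QQbar (FB F₀) := riemannRochSpace (Finsupp.single P₀ (m : ℤ))

theorem mem_bcV {m : ℕ} {f : FB F₀} :
    f ∈ bcV P₀ m ↔ f ∈ holo P₀ ∧ (f = 0 ∨ -(m : ℤ) ≤ P₀.ord f) := by
  classical
  unfold bcV
  rw [mem_riemannRochSpace_iff]
  constructor
  · intro h
    refine ⟨fun v hv => ?_, ?_⟩
    · have := h v
      rw [Finsupp.single_apply, if_neg (Ne.symm hv), neg_zero] at this
      exact (Fermat.Agent.H23.mem_iff_ord v).2 this
    · have := h P₀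
      rwa [Finsupp.single_apply, if_pos rfl] at this
  · rintro ⟨h1, h2⟩ v
    by_cases hv : v = P₀
    · subst hv
      rwa [Finsupp.single_apply, if_pos rfl]
    · rw [Finsupp.single_apply, if_neg (Ne.symm hv), neg_zero]
      exact (Fermat.Agent.H23.mem_iff_ord v).1 (h1 v hv)

theorem bcV_stable (hcusp : ∀ f : FB F₀, P₀.ord f = ((f : FB F₀) : LaurentSeries QQbar).order)
    (m : ℕ) (σ : QQbar ≃ₐ[ℚ] QQbar) (f : FB F₀) (hf : f ∈ bcV P₀ m) :
    arithmeticGalois F₀ σ • f ∈ bcV P₀ m := by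
  classical
  unfold bcV at hf ⊢
  rw [mem_riemannRochSpace_iff] at hf ⊢
  intro v
  set g := arithmeticGalois F₀ σ with hg
  have hgP : g • P₀ = P₀ := Fermat.Agent.H53.arithmeticGalois_smul_qPlace F₀ P₀ hcusp σ
  have h1 := SemilinearAut.ord_smul g (g⁻¹ • v) f
  rw [smul_inv_smul] at h1
  have hD : (Finsupp.single P₀ (m : ℤ) : Divisor QQbar (FB F₀)) (g⁻¹ • v)
      = (Finsupp.single P₀ (m : ℤ) : Divisor QQbar (FB F₀)) v := by
    rw [Finsupp.single_apply, Finsupp.single_apply]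
    by_cases hv : P₀ = v
    · rw [if_pos hv, if_pos]
      rw [← hv, ← hgP, inv_smul_smul, hgP]
    · rw [if_neg hv, if_neg]
      intro h
      apply hv
      have := congrArg (fun w => g • w) h
      simp only [smul_inv_smul] at this
      rw [← this, hgP]
  rcases hf (g⁻¹ • v) with h | h
  · left
    rw [h, smul_zero]
  · right
    rw [h1, ← hD]
    exact h

theorem bc_emb_eq_zero {f : ↥F₀} (h : emb F₀ f = 0) : f = 0 :=
  (map_eq_zero (emb F₀)).1 h

/-- an element of `F₀` whose image lies in `L(m P₀)` is in `W m` -/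
theorem bc_coeff_of_mem (hcusp : ∀ f : FB F₀, P₀.ord f = ((f : FB F₀) : LaurentSeries QQbar).order)
    {m : ℕ} {f : ↥F₀} (h : emb F₀ f = 0 ∨ -(m : ℤ) ≤ P₀.ord (emb F₀ f)) (k : ℤ)
    (hk : k < -(m : ℤ)) : ((f : ↥F₀) : LaurentSeries ℚ).coeff k = 0 := by
  rcases h with h | h
  · rw [bc_emb_eq_zero h]
    rfl
  · rw [hcusp] at h
    have h1 : ((emb F₀ f : FB F₀) : LaurentSeries QQbar).coeff k = 0 :=
      HahnSeries.coeff_eq_zero_of_lt_order (lt_of_lt_of_le hk h)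
    rw [coe_emb, coeffEmb_coeff] at h1
    exact (map_eq_zero (algebraMap ℚ QQbar)).1 h1

/-- the image of an element of `W m` lies in `L(m P₀)` -/
theorem bc_mem_of_coeff (hcusp : ∀ f : FB F₀, P₀.ord f = ((f : FB F₀) : LaurentSeries QQbar).order)
    {m : ℕ} {f : ↥F₀} (h : ∀ k : ℤ, k < -(m : ℤ) → ((f : ↥F₀) : LaurentSeries ℚ).coeff k = 0) :
    emb F₀ f = 0 ∨ -(m : ℤ) ≤ P₀.ord (emb F₀ f) := by
  by_cases h0 : emb F₀ f = 0
  · exact Or.inl h0
  · right
    rw [hcusp]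
    have h0' : ((emb F₀ f : FB F₀) : LaurentSeries QQbar) ≠ 0 := fun h => h0 (Subtype.ext h)
    rw [HahnSeries.le_order_iff_forall h0']
    intro j hj
    rw [coe_emb, coeffEmb_coeff, h j hj, map_zero]

/-- `L(m P₀)` is contained in the image of `W m ⊗ ℚ̄` -/
theorem bcV_le (hfix : FixedStatement) (hdesc : DescentStatement) (hS : CuspSetting F₀ P₀)
    (m : ℕ) : bcV P₀ m ≤ ((ratPole P₀ m).baseChange QQbar).map (bcPsi P₀) := by
  haveI : Module.Finite QQbar ↥(bcV P₀ m) := hS.rr.finite_space _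
  have h1 := hdesc F₀ (bcV P₀ m) inferInstance (bcV_stable P₀ hS.cusp m)
  rw [h1, Submodule.span_le]
  rintro f ⟨hfV, hfσ⟩
  obtain ⟨f₀, rfl⟩ := hfix F₀ f hfσ
  have hmem := (mem_bcV P₀).1 hfV
  have hR : f₀ ∈ ratHolo P₀ := hmem.1
  have hW : (⟨f₀, hR⟩ : ↥(ratHolo P₀)) ∈ ratPole P₀ m :=
    fun k hk => bc_coeff_of_mem P₀ hS.cusp hmem.2 k hk
  refine ⟨(1 : QQbar) ⊗ₜ[ℚ] (⟨f₀, hR⟩ : ↥(ratHolo P₀)),
    Submodule.tmul_mem_baseChange_of_mem 1 hW, ?_⟩
  rw [bcPsi_tmul, map_one, one_mul]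

theorem bcTheta_surjective (hfix : FixedStatement) (hdesc : DescentStatement)
    (hS : CuspSetting F₀ P₀) : Function.Surjective (bcTheta P₀) := by
  intro h
  have hV : (h : FB F₀) ∈ bcV P₀ (-(P₀.ord (h : FB F₀))).toNat := by
    rw [mem_bcV]
    refine ⟨h.2, Or.inr ?_⟩
    have := Int.self_le_toNat (-(P₀.ord (h : FB F₀)))
    omega
  obtain ⟨y, -, hy⟩ := bcV_le P₀ hfix hdesc hS _ hV
  exact ⟨y, Subtype.ext hy⟩

theorem bc_filtration (hfix : FixedStatement) (hdesc : DescentStatement)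
    (hS : CuspSetting F₀ P₀) (m : ℕ) (x : QQbar ⊗[ℚ] ↥(ratHolo P₀)) :
    x ∈ (ratPole P₀ m).baseChange QQbar ↔ bcTheta P₀ x ∈ poleSpace P₀ m := by
  constructor
  · intro hx
    rw [Submodule.baseChange_eq_span] at hx
    induction hx using Submodule.span_induction with
    | mem y hy =>
      obtain ⟨g, hg, rfl⟩ := hy
      rw [TensorProduct.mk_apply, bcTheta_tmul, map_one, one_mul]
      exact bc_mem_of_coeff P₀ hS.cusp hg
    | zero => rw [map_zero]; exact Submodule.zero_mem _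
    | add y z _ _ hy hz => rw [map_add]; exact Submodule.add_mem _ hy hz
    | smul a y _ hy => rw [map_smul]; exact Submodule.smul_mem _ a hy
  · intro hx
    have hV : bcPsi P₀ x ∈ bcV P₀ m := (mem_bcV P₀).2 ⟨(bcTheta P₀ x).2, hx⟩
    obtain ⟨y, hy, hyx⟩ := bcV_le P₀ hfix hdesc hS m hV
    rw [← bcPsi_injective P₀ hyx]
    exact hy

/-- **MW-E-BC** (row 879). -/
theorem baseChangeStatement (hfix : FixedStatement) (hdesc : DescentStatement) :
    BaseChangeStatement := by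
  intro F₀ P₀ hS
  refine ⟨RingEquiv.ofBijective (bcTheta P₀)
    ⟨bcTheta_injective P₀, bcTheta_surjective P₀ hfix hdesc hS⟩, ?_, ?_⟩
  · intro a f
    exact bcPsi_tmul P₀ a f
  · intro m x
    exact bc_filtration P₀ hfix hdesc hS m x

end Fermat.Agent.H50

end
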