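/-
P-MW row 690 (MW-NORM), part 2 (Mathlib only): for a domain `S` which is free of finite rank over
`ℚ[X]`, the characteristic polynomial of multiplication by `X` on `S ⧸ (f)` is the norm of `f`
up to a nonzero constant.
-/
import Mathlib

set_option autoImplicit false
set_option linter.unusedSectionVars false
set_option linter.unusedVariables false
set_option linter.style.haveILetI false

noncomputable section

open Module Polynomial

namespace Fermat.Agent.H50

/-- characteristic polynomial of a (dependent) finite product of endomorphisms -/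
theorem mwn_charpoly_piMap : ∀ (n : ℕ) (M : Fin n → Type) [∀ i, AddCommGroup (M i)]
    [∀ i, Module ℚ (M i)] [∀ i, Module.Finite ℚ (M i)] (f : ∀ i, M i →ₗ[ℚ] M i),
    (LinearMap.piMap f).charpoly = ∏ i, (f i).charpoly := by
  intro n
  induction n with
  | zero =>
    intro M _ _ _ f
    have h1 : (LinearMap.piMap f).charpoly.natDegree = 0 := by
      rw [LinearMap.charpoly_natDegree]
      exact Module.finrank_zero_of_subsingleton
    have h2 := LinearMap.charpoly_monic (LinearMap.piMap f)
    rw [Finset.univ_eq_empty, Finset.prod_empty]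
    exact h2.natDegree_eq_zero.1 h1
  | succ n ih =>
    intro M _ _ _ f
    have key : LinearMap.piMap f = (Fin.consLinearEquiv ℚ M).conj
        ((f 0).prodMap (LinearMap.piMap fun i : Fin n => f i.succ)) := by
      apply LinearMap.ext
      intro x
      funext j
      rw [LinearEquiv.conj_apply_apply]
      refine Fin.cases ?_ ?_ j
      · simp
      · intro i; simp [Fin.tail]
    rw [key, LinearEquiv.charpoly_conj, LinearMap.charpoly_prodMap, ih, Fin.prod_univ_succ]

/-- the characteristic polynomial of `X` on `ℚ[X] ⧸ (c)` -/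
theorem mwn_charpoly_quot (c : ℚ[X]) (hc : c ≠ 0)
    [Module.Finite ℚ (ℚ[X] ⧸ Ideal.span ({c} : Set ℚ[X]))] :
    (LinearMap.mulLeft ℚ (Ideal.Quotient.mk (Ideal.span ({c} : Set ℚ[X])) X)).charpoly
      = c * C c.leadingCoeff⁻¹ := by
  have h1 := charpoly_leftMulMatrix (AdjoinRoot.powerBasis hc)
  rw [AdjoinRoot.powerBasis_gen, AdjoinRoot.minpoly_root hc] at h1
  rw [← h1]
  haveI : Module.Finite ℚ (AdjoinRoot c) := PowerBasis.finite (AdjoinRoot.powerBasis hc)
  exact (LinearMap.charpoly_toMatrix (LinearMap.mulLeft ℚ (AdjoinRoot.root c))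
    (AdjoinRoot.powerBasis hc).basis).symm

variable {S : Type} [CommRing S] [IsDomain S] [Algebra ℚ[X] S] [Algebra ℚ S]
  [IsScalarTower ℚ ℚ[X] S]

theorem mwn_charpoly_eq_norm {n : ℕ} (b : Basis (Fin n) ℚ[X] S) {f : S} (hf : f ≠ 0)
    [Module.Finite ℚ (S ⧸ Ideal.span ({f} : Set S))] :
    ∃ c : ℚ, c ≠ 0 ∧
      (LinearMap.mulLeft ℚ
        (Ideal.Quotient.mk (Ideal.span ({f} : Set S)) (algebraMap ℚ[X] S X))).charpoly
        = C c * Algebra.norm ℚ[X] f := by
  have hI : Ideal.span ({f} : Set S) ≠ ⊥ := Ideal.span_singleton_eq_bot.not.2 hf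
  set E := Ideal.quotientEquivPiSpan (Ideal.span ({f} : Set S)) b hI with hE
  set e := E.restrictScalars ℚ with he
  have hc0 : ∀ i, (Ideal.span ({f} : Set S)).smithCoeffs b hI i ≠ 0 :=
    fun i => Ideal.smithCoeffs_ne_zero b _ hI i
  have hconj : e.conj (LinearMap.mulLeft ℚ
        (Ideal.Quotient.mk (Ideal.span ({f} : Set S)) (algebraMap ℚ[X] S X)))
      = LinearMap.piMap (fun i => LinearMap.mulLeft ℚ
        (Ideal.Quotient.mk (Ideal.span ({(Ideal.span ({f} : Set S)).smithCoeffs b hI i} :
          Set ℚ[X])) X)) := by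
    apply LinearMap.ext
    intro y
    rw [LinearEquiv.conj_apply_apply]
    have h1 : (LinearMap.mulLeft ℚ
        (Ideal.Quotient.mk (Ideal.span ({f} : Set S)) (algebraMap ℚ[X] S X))) (e.symm y)
        = (X : ℚ[X]) • (E.symm y) := by
      rw [Algebra.smul_def]
      rfl
    rw [h1]
    have h2 : e ((X : ℚ[X]) • (E.symm y)) = (X : ℚ[X]) • y := by
      change E ((X : ℚ[X]) • (E.symm y)) = _
      rw [map_smul, LinearEquiv.apply_symm_apply]
    rw [h2]
    funext i
    simp only [LinearMap.coe_piMap, Pi.map_apply, Pi.smul_apply, LinearMap.mulLeft_apply]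
    rw [Algebra.smul_def]
    rfl
  rw [← LinearEquiv.charpoly_conj e, hconj, mwn_charpoly_piMap]
  simp_rw [mwn_charpoly_quot _ (hc0 _)]
  obtain ⟨u, hu⟩ := associated_norm_prod_smith b hf
  obtain ⟨r, hr, hru⟩ := Polynomial.isUnit_iff.1 u.isUnit
  rw [Finset.prod_mul_distrib, ← hu, ← hru, ← map_prod, mul_assoc, ← C_mul, mul_comm]
  refine ⟨_, ?_, rfl⟩
  refine mul_ne_zero hr.ne_zero (Finset.prod_ne_zero_iff.2 fun i _ => ?_)
  exact inv_ne_zero (Polynomial.leadingCoeff_ne_zero.2 (hc0 i))

end Fermat.Agent.H50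

end
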