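/-
P-MW row 690 (MW-NORM), part 3 (Mathlib only): the generic norm form.  For a domain `S` free of
rank `n` over `ℚ[X]` and a finite family `w : Fin N → S`, the norm of `∑ x_j w_j` is a polynomial
in `X` whose coefficients are forms of degree `n` in the `x_j`.
-/
import Mathlib

set_option autoImplicit false
set_option linter.unusedSectionVars false
set_option linter.unusedVariables false
set_option linter.style.haveILetI false

noncomputable section

open Module Polynomial

namespace Fermat.Agent.H50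

section CH

variable {N : ℕ}

/-- all coefficients are homogeneous of degree `d` -/
def mwnCH (d : ℕ) (p : Polynomial (MvPolynomial (Fin N) ℚ)) : Prop :=
  ∀ i, (p.coeff i).IsHomogeneous d

theorem mwnCH_one : mwnCH 0 (1 : Polynomial (MvPolynomial (Fin N) ℚ)) := fun i => by
  rw [Polynomial.coeff_one]
  split_ifs
  · exact MvPolynomial.isHomogeneous_one ..
  · exact MvPolynomial.isHomogeneous_zero ..

theorem mwnCH_neg {d : ℕ} {p : Polynomial (MvPolynomial (Fin N) ℚ)} (hp : mwnCH d p) :
    mwnCH d (-p) := fun i => by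
  rw [Polynomial.coeff_neg]; exact (hp i).neg

theorem mwnCH_sum {ι : Type} {d : ℕ} (s : Finset ι)
    (p : ι → Polynomial (MvPolynomial (Fin N) ℚ)) (h : ∀ i ∈ s, mwnCH d (p i)) :
    mwnCH d (∑ i ∈ s, p i) := fun r => by
  rw [Polynomial.finsetSum_coeff]
  exact MvPolynomial.IsHomogeneous.sum _ _ _ (fun i hi => h i hi r)

theorem mwnCH_mul {d₁ d₂ : ℕ} {p q : Polynomial (MvPolynomial (Fin N) ℚ)} (hp : mwnCH d₁ p)
    (hq : mwnCH d₂ q) : mwnCH (d₁ + d₂) (p * q) := fun i => by
  rw [Polynomial.coeff_mul]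
  exact MvPolynomial.IsHomogeneous.sum _ _ _ (fun x _ => (hp _).mul (hq _))

theorem mwnCH_prod {ι : Type} (s : Finset ι) (p : ι → Polynomial (MvPolynomial (Fin N) ℚ))
    (h : ∀ i ∈ s, mwnCH 1 (p i)) : mwnCH s.card (∏ i ∈ s, p i) := by
  classical
  induction s using Finset.induction_on with
  | empty => simpa using mwnCH_one
  | insert a s ha ih =>
    rw [Finset.prod_insert ha, Finset.card_insert_of_notMem ha, add_comm]
    exact mwnCH_mul (h a (Finset.mem_insert_self a s))
      (ih fun i hi => h i (Finset.mem_insert_of_mem hi))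

theorem mwnCH_det {n : ℕ} (G : Matrix (Fin n) (Fin n) (Polynomial (MvPolynomial (Fin N) ℚ)))
    (hG : ∀ l i, mwnCH 1 (G l i)) : mwnCH n G.det := by
  rw [Matrix.det_apply]
  apply mwnCH_sum
  intro σ _
  have h1 : mwnCH n (∏ i, G (σ i) i) := by
    have := mwnCH_prod Finset.univ (fun i => G (σ i) i) (fun i _ => hG _ _)
    simpa using this
  rcases Int.units_eq_one_or (Equiv.Perm.sign σ) with h | h
  · rw [h, one_smul]; exact h1
  · rw [h, Units.neg_smul, one_smul]; exact mwnCH_neg h1

end CH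

variable {S : Type} [CommRing S] [Algebra ℚ[X] S] [Algebra ℚ S] [IsScalarTower ℚ ℚ[X] S]
variable {n N : ℕ} (b : Basis (Fin n) ℚ[X] S) (w : Fin N → S)

/-- the generic multiplication matrix -/
def mwnGen : Matrix (Fin n) (Fin n) (Polynomial (MvPolynomial (Fin N) ℚ)) :=
  fun l i => ∑ j, C (MvPolynomial.X j) * ((Algebra.leftMulMatrix b (w j)) l i).map MvPolynomial.C

/-- the generic norm form -/
def mwnD : Polynomial (MvPolynomial (Fin N) ℚ) := (mwnGen b w).det

theorem mwnD_homogeneous (i : ℕ) : ((mwnD b w).coeff i).IsHomogeneous n := by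
  refine mwnCH_det (mwnGen b w) (fun l i' => ?_) i
  unfold mwnGen
  apply mwnCH_sum
  intro j _ r
  rw [Polynomial.coeff_C_mul, Polynomial.coeff_map]
  simpa using (MvPolynomial.isHomogeneous_X ℚ j).mul (MvPolynomial.isHomogeneous_C (Fin N) _)

theorem mwnD_map {K : Type} [CommRing K] (φ : MvPolynomial (Fin N) ℚ →+* K) :
    (mwnD b w).map φ = Matrix.det (fun l i : Fin n =>
      ∑ j, C (φ (MvPolynomial.X j)) *
        ((Algebra.leftMulMatrix b (w j)) l i).map (φ.comp MvPolynomial.C)) := by
  unfold mwnD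
  rw [← Polynomial.coe_mapRingHom, RingHom.map_det]
  congr 1
  ext l i : 2
  simp [mwnGen, Polynomial.map_sum, Polynomial.map_mul, Polynomial.map_map]

theorem mwn_C_smul (c : ℚ) (s : S) : (C c : ℚ[X]) • s = c • s := by
  rw [← Polynomial.algebraMap_eq, algebraMap_smul]

theorem mwnD_eval (x : Fin N → ℚ) :
    (mwnD b w).map (MvPolynomial.eval x) = Algebra.norm ℚ[X] (∑ j, x j • w j) := by
  rw [mwnD_map, Algebra.norm_eq_matrix_det b]
  congr 1
  ext l i : 2
  have h1 : (MvPolynomial.eval x).comp MvPolynomial.C = RingHom.id ℚ := by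
    ext c; simp
  simp only [h1, Polynomial.map_id, MvPolynomial.eval_X]
  have h2 : Algebra.leftMulMatrix b (∑ j, x j • w j)
      = ∑ j, (C (x j) : ℚ[X]) • Algebra.leftMulMatrix b (w j) := by
    rw [map_sum]
    refine Finset.sum_congr rfl fun j _ => ?_
    rw [← mwn_C_smul, map_smul]
  rw [h2]
  simp only [Matrix.sum_apply, Matrix.smul_apply, smul_eq_mul]

theorem mwnD_coeff_eval (x : Fin N → ℚ) (i : ℕ) :
    MvPolynomial.eval x ((mwnD b w).coeff i) = (Algebra.norm ℚ[X] (∑ j, x j • w j)).coeff i := by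
  rw [← mwnD_eval b w x, Polynomial.coeff_map]

end Fermat.Agent.H50

end
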