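/-
P-MW row 690 (MW-NORM), part 4 (Mathlib only): the generic norm form has no nontrivial zero over
an extension field `K` of `ℚ` for which `K ⊗ S` is a domain.
-/
import Fermat.Agent.H50.MW.NormForms

set_option autoImplicit false
set_option linter.unusedSectionVars false
set_option linter.unusedVariables false
set_option linter.style.haveILetI false

noncomputable section

open Module Polynomial TensorProduct

namespace Fermat.Agent.H50

variable {S : Type} [CommRing S] [Algebra ℚ[X] S] [Algebra ℚ S] [IsScalarTower ℚ ℚ[X] S]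
variable {n N : ℕ} (b : Basis (Fin n) ℚ[X] S) (w : Fin N → S)
variable {K : Type} [Field K] [Algebra ℚ K]

/-- the image of `X` in `K ⊗ S` -/
def mwnTau (S K : Type) [CommRing S] [Algebra ℚ[X] S] [Algebra ℚ S] [Field K] [Algebra ℚ K] :
    K ⊗[ℚ] S :=
  (1 : K) ⊗ₜ[ℚ] (algebraMap ℚ[X] S X)

theorem mwn_key1 (f : ℚ[X]) (s : S) :
    (1 : K) ⊗ₜ[ℚ] (f • s)
      = Polynomial.aeval (mwnTau S K) (f.map (algebraMap ℚ K)) * ((1 : K) ⊗ₜ[ℚ] s) := by
  have h1 : Polynomial.aeval (mwnTau S K) (f.map (algebraMap ℚ K))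
      = (1 : K) ⊗ₜ[ℚ] (algebraMap ℚ[X] S f) := by
    rw [Polynomial.aeval_map_algebraMap]
    have h2 : mwnTau S K = (Algebra.TensorProduct.includeRight : S →ₐ[ℚ] K ⊗[ℚ] S)
        (algebraMap ℚ[X] S X) := rfl
    rw [h2, Polynomial.aeval_algHom_apply, Polynomial.aeval_algebraMap_apply,
      Polynomial.aeval_X_left_apply]
    rfl
  rw [h1, Algebra.TensorProduct.tmul_mul_tmul, one_mul, Algebra.smul_def]

theorem mwn_key2 (a : S) (i : Fin n) :
    a * b i = ∑ l, (Algebra.leftMulMatrix b a l i) • b l := by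
  simp_rw [Algebra.leftMulMatrix_eq_repr_mul]
  exact (b.sum_repr (a * b i)).symm

/-- the specialised multiplication matrix -/
def mwnSpec (x : Fin N → K) : Matrix (Fin n) (Fin n) K[X] :=
  fun l i => ∑ j, C (x j) * ((Algebra.leftMulMatrix b (w j)) l i).map (algebraMap ℚ K)

theorem mwn_alpha_mul (x : Fin N → K) (i : Fin n) :
    (∑ j, x j • ((1 : K) ⊗ₜ[ℚ] w j)) * ((1 : K) ⊗ₜ[ℚ] b i)
      = ∑ l, Polynomial.aeval (mwnTau S K) (mwnSpec b w x l i) * ((1 : K) ⊗ₜ[ℚ] b l) := by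
  have h1 : ∀ j, (x j • ((1 : K) ⊗ₜ[ℚ] w j)) * ((1 : K) ⊗ₜ[ℚ] b i)
      = ∑ l, x j • (Polynomial.aeval (mwnTau S K)
          (((Algebra.leftMulMatrix b (w j)) l i).map (algebraMap ℚ K)) * ((1 : K) ⊗ₜ[ℚ] b l)) := by
    intro j
    rw [smul_mul_assoc, Algebra.TensorProduct.tmul_mul_tmul, one_mul, mwn_key2 b (w j) i,
      TensorProduct.tmul_sum, Finset.smul_sum]
    refine Finset.sum_congr rfl fun l _ => ?_
    rw [mwn_key1]
  rw [Finset.sum_mul]
  simp_rw [h1]
  rw [Finset.sum_comm]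
  refine Finset.sum_congr rfl fun l _ => ?_
  unfold mwnSpec
  rw [map_sum, Finset.sum_mul]
  refine Finset.sum_congr rfl fun j _ => ?_
  rw [map_mul, Polynomial.aeval_C, ← Algebra.smul_def, smul_mul_assoc]

theorem mwn_alpha_beta (x : Fin N → K) (v : Fin n → K[X])
    (hv : Matrix.mulVec (mwnSpec b w x) v = 0) :
    (∑ j, x j • ((1 : K) ⊗ₜ[ℚ] w j)) *
      (∑ i, Polynomial.aeval (mwnTau S K) (v i) * ((1 : K) ⊗ₜ[ℚ] b i)) = 0 := by
  rw [Finset.mul_sum]
  have h1 : ∀ i, (∑ j, x j • ((1 : K) ⊗ₜ[ℚ] w j)) *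
      (Polynomial.aeval (mwnTau S K) (v i) * ((1 : K) ⊗ₜ[ℚ] b i))
      = ∑ l, Polynomial.aeval (mwnTau S K) (mwnSpec b w x l i * v i) * ((1 : K) ⊗ₜ[ℚ] b l) := by
    intro i
    rw [mul_left_comm, mwn_alpha_mul, Finset.mul_sum]
    refine Finset.sum_congr rfl fun l _ => ?_
    rw [map_mul]; ring
  simp_rw [h1]
  rw [Finset.sum_comm]
  refine Finset.sum_eq_zero fun l _ => ?_
  rw [← Finset.sum_mul, ← map_sum]
  have h2 : ∑ i, mwnSpec b w x l i * v i = 0 := by
    have := congrFun hv l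
    simpa [Matrix.mulVec, dotProduct] using this
  rw [h2, map_zero, zero_mul]

theorem mwn_beta_ne_zero (v : Fin n → K[X]) (hv : v ≠ 0) :
    (∑ i, Polynomial.aeval (mwnTau S K) (v i) * ((1 : K) ⊗ₜ[ℚ] b i)) ≠ 0 := by
  intro h0
  apply hv
  -- the `ℚ`-basis `X^m • b i` of `S`
  have hu : LinearIndependent ℚ (fun p : ℕ × Fin n => (monomial p.1 (1 : ℚ) : ℚ[X]) • b p.2) := by
    have := ((Polynomial.basisMonomials ℚ).smulTower b).linearIndependent
    convert this using 1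
    funext p
    simp
  have hU := Module.Flat.linearIndependent_one_tmul (S := K) hu
  obtain ⟨Nmax, hN⟩ : ∃ Nmax : ℕ, ∀ i, (v i).natDegree < Nmax :=
    ⟨(Finset.univ.sup fun i => (v i).natDegree) + 1, fun i =>
      Nat.lt_succ_of_le (Finset.le_sup (f := fun i => (v i).natDegree) (Finset.mem_univ i))⟩
  have h1 : (∑ i, Polynomial.aeval (mwnTau S K) (v i) * ((1 : K) ⊗ₜ[ℚ] b i))
      = ∑ p ∈ (Finset.range Nmax) ×ˢ (Finset.univ : Finset (Fin n)),
          (v p.2).coeff p.1 • ((1 : K) ⊗ₜ[ℚ] ((monomial p.1 (1 : ℚ) : ℚ[X]) • b p.2)) := by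
    rw [Finset.sum_product_right]
    refine Finset.sum_congr rfl fun i _ => ?_
    rw [Polynomial.aeval_eq_sum_range' (hN i), Finset.sum_mul]
    refine Finset.sum_congr rfl fun m _ => ?_
    rw [mwn_key1, smul_mul_assoc]
    congr 2
    simp [← Algebra.TensorProduct.one_def]
  rw [h1] at h0
  have h2 := linearIndependent_iff'.1 hU _ _ h0
  funext i
  ext m
  simp only [Pi.zero_apply, Polynomial.coeff_zero]
  by_cases hm : m < Nmax
  · exact h2 (m, i) (Finset.mem_product.2 ⟨Finset.mem_range.2 hm, Finset.mem_univ i⟩)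
  · exact Polynomial.coeff_eq_zero_of_natDegree_lt (lt_of_lt_of_le (hN i) (not_lt.1 hm))

theorem mwn_spec_det_ne_zero (hdom : IsDomain (K ⊗[ℚ] S)) (hw : LinearIndependent ℚ w)
    (x : Fin N → K) (hx : x ≠ 0) : (mwnSpec b w x).det ≠ 0 := by
  intro hdet
  obtain ⟨v, hv, hMv⟩ := Matrix.exists_mulVec_eq_zero_iff.2 hdet
  have h1 := mwn_alpha_beta b w x v hMv
  rcases mul_eq_zero.1 h1 with h | h
  · apply hx
    have hW := Module.Flat.linearIndependent_one_tmul (S := K) hw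
    funext j
    exact Fintype.linearIndependent_iff.1 hW x h j
  · exact mwn_beta_ne_zero b v hv h

theorem mwnD_nonvanish (hdom : IsDomain (K ⊗[ℚ] S)) (hw : LinearIndependent ℚ w)
    (x : Fin N → K) (hx : x ≠ 0) :
    (mwnD b w).map ((MvPolynomial.aeval x : MvPolynomial (Fin N) ℚ →ₐ[ℚ] K) :
      MvPolynomial (Fin N) ℚ →+* K) ≠ 0 := by
  rw [mwnD_map]
  have h1 : ((MvPolynomial.aeval x : MvPolynomial (Fin N) ℚ →ₐ[ℚ] K) :
      MvPolynomial (Fin N) ℚ →+* K).comp MvPolynomial.C = algebraMap ℚ K := by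
    ext c; simp
  have h2 : (fun l i : Fin n => ∑ j,
      C (((MvPolynomial.aeval x : MvPolynomial (Fin N) ℚ →ₐ[ℚ] K) :
        MvPolynomial (Fin N) ℚ →+* K) (MvPolynomial.X j)) *
        ((Algebra.leftMulMatrix b (w j)) l i).map
          (((MvPolynomial.aeval x : MvPolynomial (Fin N) ℚ →ₐ[ℚ] K) :
            MvPolynomial (Fin N) ℚ →+* K).comp MvPolynomial.C)) = mwnSpec b w x := by
    funext l i
    unfold mwnSpec
    rw [h1]
    simp
  rw [show Matrix.det _ = (mwnSpec b w x).det from congrArg Matrix.det h2]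
  exact mwn_spec_det_ne_zero b w hdom hw x hx

end Fermat.Agent.H50

end
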