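/-
P-MW row 690 (MW-NORM), part 1: pole calculus of a datum, and `R` is a free `ℚ[X]`-module of
rank `e` via `X ↦ t` (given `BasicStatement`).
-/
import Fermat.Agent.H92.MW.BasicInterfaces

set_option autoImplicit false
set_option linter.unusedSectionVars false
set_option linter.unusedVariables false
set_option linter.style.haveILetI false

noncomputable section

open Module Polynomial
open Fermat.Agent.H92.MW

namespace Fermat.Agent.H50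

variable {R : Type} [CommRing R] [Algebra ℚ R] [IsDedekindDomain R] (𝒞 : MWDatum R)

theorem mwn_mem_W_pole (a : R) : a ∈ 𝒞.W (pole 𝒞 a) :=
  Nat.sInf_mem (s := {m : ℕ | a ∈ 𝒞.W m}) (𝒞.W_exhaust a)

theorem mwn_pole_le {a : R} {m : ℕ} (h : a ∈ 𝒞.W m) : pole 𝒞 a ≤ m :=
  Nat.sInf_le (s := {m : ℕ | a ∈ 𝒞.W m}) h

theorem mwn_mem_W_iff {a : R} {m : ℕ} : a ∈ 𝒞.W m ↔ pole 𝒞 a ≤ m :=
  ⟨mwn_pole_le 𝒞, fun h => 𝒞.W_mono h (mwn_mem_W_pole 𝒞 a)⟩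

theorem mwn_t_ne_zero : 𝒞.t ≠ 0 := fun h => 𝒞.t_not_mem (h ▸ Submodule.zero_mem _)

theorem mwn_pole_t : pole 𝒞 𝒞.t = 𝒞.e := by
  apply le_antisymm (mwn_pole_le 𝒞 𝒞.t_mem)
  by_contra h
  have h' : pole 𝒞 𝒞.t ≤ 𝒞.e - 1 := by omega
  exact 𝒞.t_not_mem ((mwn_mem_W_iff 𝒞).2 h')

theorem mwn_one_mem_W (m : ℕ) : (1 : R) ∈ 𝒞.W m := by
  have h0 : (1 : R) ∈ 𝒞.W 0 := by rw [𝒞.W_zero]; exact Submodule.mem_one.2 ⟨1, by simp⟩
  exact 𝒞.W_mono (Nat.zero_le m) h0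

theorem mwn_mul_mem_W {a b : R} {m m' : ℕ} (ha : a ∈ 𝒞.W m) (hb : b ∈ 𝒞.W m') :
    a * b ∈ 𝒞.W (m + m') :=
  𝒞.W_mul m m' (Submodule.mul_mem_mul ha hb)

theorem mwn_t_pow_mem (i : ℕ) : 𝒞.t ^ i ∈ 𝒞.W (i * 𝒞.e) := by
  induction i with
  | zero => simpa using mwn_one_mem_W 𝒞 0
  | succ i ih =>
    rw [pow_succ, Nat.succ_mul]
    exact mwn_mul_mem_W 𝒞 ih 𝒞.t_mem

theorem mwn_pole_t_pow (hB : BasicStatement 𝒞) (i : ℕ) : pole 𝒞 (𝒞.t ^ i) = i * 𝒞.e := by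
  induction i with
  | zero =>
    simp only [pow_zero, Nat.zero_mul]
    exact Nat.le_zero.1 (mwn_pole_le 𝒞 (mwn_one_mem_W 𝒞 0))
  | succ i ih =>
    rw [pow_succ, hB.2.2.1 _ _ (pow_ne_zero _ (mwn_t_ne_zero 𝒞)) (mwn_t_ne_zero 𝒞), ih,
      mwn_pole_t, Nat.succ_mul]

/-- one step of the leading-term reduction -/
theorem mwn_step {a b : R} {m : ℕ} (ha : a ∈ 𝒞.W (m + 1)) (hb : b ∈ 𝒞.W (m + 1))
    (hb' : b ∉ 𝒞.W m) : ∃ c : ℚ, a - c • b ∈ 𝒞.W m := by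
  haveI hfin : Module.Finite ℚ (𝒞.W (m + 1)) := 𝒞.W_fin _
  haveI hfin' : Module.Finite ℚ (𝒞.W m) := 𝒞.W_fin _
  set U : Submodule ℚ R := 𝒞.W m ⊔ Submodule.span ℚ {b} with hU
  have hUle : U ≤ 𝒞.W (m + 1) :=
    sup_le (𝒞.W_mono (Nat.le_succ m)) ((Submodule.span_singleton_le_iff_mem _ _).2 hb)
  have hlt : 𝒞.W m < U := by
    refine lt_of_le_of_ne le_sup_left ?_
    intro h
    apply hb'
    rw [h]
    exact Submodule.mem_sup_right (Submodule.mem_span_singleton_self b)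
  haveI hUfin : Module.Finite ℚ U :=
    Module.Finite.of_injective (Submodule.inclusion hUle) (Submodule.inclusion_injective hUle)
  have h1 : finrank ℚ (𝒞.W m) < finrank ℚ U := Submodule.finrank_lt_finrank_of_lt hlt
  have h3 := 𝒞.W_step m
  have hUeq : U = 𝒞.W (m + 1) := Submodule.eq_of_le_of_finrank_le hUle (by omega)
  have ha' : a ∈ U := hUeq ▸ ha
  obtain ⟨w, hw, z, hz, hwz⟩ := Submodule.mem_sup.1 ha'
  obtain ⟨c, rfl⟩ := Submodule.mem_span_singleton.1 hz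
  refine ⟨c, ?_⟩
  have : a - c • b = w := by rw [← hwz]; ring
  rw [this]
  exact hw

/-- the `ℚ[X]`-algebra structure on `R` given by `X ↦ t` -/
@[reducible] def mwnAlg : Algebra ℚ[X] R := (Polynomial.aeval 𝒞.t).toRingHom.toAlgebra

theorem mwn_algebraMap_apply (f : ℚ[X]) :
    letI := mwnAlg 𝒞
    algebraMap ℚ[X] R f = Polynomial.aeval 𝒞.t f := rfl

theorem mwn_smul_def (f : ℚ[X]) (r : R) :
    letI := mwnAlg 𝒞
    f • r = Polynomial.aeval 𝒞.t f * r := rfl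

theorem mwn_isScalarTower :
    letI := mwnAlg 𝒞
    IsScalarTower ℚ ℚ[X] R := by
  letI := mwnAlg 𝒞
  refine ⟨fun c f r => ?_⟩
  rw [mwn_smul_def, mwn_smul_def, map_smul, smul_mul_assoc]

theorem mwn_algebraMap_X :
    letI := mwnAlg 𝒞
    algebraMap ℚ[X] R X = 𝒞.t := by
  letI := mwnAlg 𝒞
  rw [mwn_algebraMap_apply, aeval_X]

/-- `t` is transcendental over `ℚ` -/
theorem mwn_aeval_ne_zero (hB : BasicStatement 𝒞) {f : ℚ[X]} (hf : f ≠ 0) :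
    Polynomial.aeval 𝒞.t f ≠ 0 := by
  intro h0
  obtain ⟨d, hd⟩ : ∃ d, d = f.natDegree := ⟨_, rfl⟩
  have hlc : f.coeff d ≠ 0 := by
    rw [hd]; exact Polynomial.leadingCoeff_ne_zero.2 hf
  rw [Polynomial.aeval_eq_sum_range, Finset.sum_range_succ, ← hd] at h0
  -- the lower part lies in `W ((d - 1) * e)`
  have hlow : ∀ i ∈ Finset.range d, f.coeff i • 𝒞.t ^ i ∈ 𝒞.W ((d - 1) * 𝒞.e) := by
    intro i hi
    have hi' : i ≤ d - 1 := by have := Finset.mem_range.1 hi; omega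
    exact Submodule.smul_mem _ _
      (𝒞.W_mono (Nat.mul_le_mul_right _ hi') (mwn_t_pow_mem 𝒞 i))
  have hsum : (∑ i ∈ Finset.range d, f.coeff i • 𝒞.t ^ i) ∈ 𝒞.W ((d - 1) * 𝒞.e) :=
    Submodule.sum_mem _ hlow
  have htop : f.coeff d • 𝒞.t ^ d ∈ 𝒞.W ((d - 1) * 𝒞.e) := by
    have : f.coeff d • 𝒞.t ^ d = -(∑ i ∈ Finset.range d, f.coeff i • 𝒞.t ^ i) := by
      rw [eq_neg_iff_add_eq_zero, add_comm]; exact h0
    rw [this]
    exact Submodule.neg_mem _ hsum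
  have htd : 𝒞.t ^ d ∈ 𝒞.W ((d - 1) * 𝒞.e) := by
    have := Submodule.smul_mem (𝒞.W ((d - 1) * 𝒞.e)) (f.coeff d)⁻¹ htop
    rwa [smul_smul, inv_mul_cancel₀ hlc, one_smul] at this
  have hp := mwn_pole_le 𝒞 htd
  rw [mwn_pole_t_pow 𝒞 hB] at hp
  rcases Nat.eq_zero_or_pos d with hd0 | hdpos
  · -- `d = 0`: the constant `f.coeff 0` is nonzero
    rw [hd0] at h0 hlc
    simp only [Finset.range_zero, Finset.sum_empty, pow_zero, zero_add] at h0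
    have : f.coeff 0 = 0 := by
      by_contra hne
      have h1 : (1 : R) = 0 := by
        have := congrArg (fun x => (f.coeff 0)⁻¹ • x) h0
        simp only [smul_smul, inv_mul_cancel₀ hne, one_smul, smul_zero] at this
        exact this
      exact one_ne_zero h1
    exact hlc this
  · have he := 𝒞.e_pos
    have : d * 𝒞.e ≤ (d - 1) * 𝒞.e := hp
    have h2 : (d - 1) * 𝒞.e < d * 𝒞.e := Nat.mul_lt_mul_of_pos_right (by omega) he
    omega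

theorem mwn_isTorsionFree (hB : BasicStatement 𝒞) :
    letI := mwnAlg 𝒞
    Module.IsTorsionFree ℚ[X] R := by
  letI := mwnAlg 𝒞
  refine ⟨fun r hr x y hxy => ?_⟩
  have hr0 : r ≠ 0 := hr.ne_zero
  have h := mwn_aeval_ne_zero 𝒞 hB hr0
  have hxy' : Polynomial.aeval 𝒞.t r * x = Polynomial.aeval 𝒞.t r * y := hxy
  exact mul_left_cancel₀ h hxy'

/-- every `W m` lies in the `ℚ[X]`-span of `W (m₀ + e)` -/
theorem mwn_W_le_span (hB : BasicStatement 𝒞) (m : ℕ) :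
    letI := mwnAlg 𝒞
    ∀ a ∈ 𝒞.W m, a ∈ Submodule.span ℚ[X] (𝒞.W (𝒞.m₀ + 𝒞.e) : Set R) := by
  letI := mwnAlg 𝒞
  induction m with
  | zero =>
    intro a ha
    exact Submodule.subset_span (𝒞.W_mono (Nat.zero_le _) ha)
  | succ m ih =>
    intro a ha
    by_cases hm : m + 1 ≤ 𝒞.m₀ + 𝒞.e
    · exact Submodule.subset_span (𝒞.W_mono hm ha)
    · have hm' : 𝒞.m₀ + 𝒞.e ≤ m := by omega
      have he := 𝒞.e_pos
      -- an element `b` of exact pole order `m + 1 - e`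
      have hr1 := 𝒞.W_finrank (m + 1 - 𝒞.e) (by omega)
      have hr0 := 𝒞.W_finrank (m - 𝒞.e) (by omega)
      have hne : ¬ (𝒞.W (m + 1 - 𝒞.e) ≤ 𝒞.W (m - 𝒞.e)) := by
        intro hle
        haveI : Module.Finite ℚ (𝒞.W (m - 𝒞.e)) := 𝒞.W_fin _
        have := Submodule.finrank_mono hle
        omega
      obtain ⟨b, hb, hb'⟩ := SetLike.not_le_iff_exists.1 hne
      have hb0 : b ≠ 0 := fun h => hb' (h ▸ Submodule.zero_mem _)
      have hpb : pole 𝒞 b = m + 1 - 𝒞.e := by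
        apply le_antisymm (mwn_pole_le 𝒞 hb)
        by_contra hlt
        exact hb' ((mwn_mem_W_iff 𝒞).2 (by omega))
      have htb : 𝒞.t * b ∈ 𝒞.W (m + 1) := by
        have := mwn_mul_mem_W 𝒞 𝒞.t_mem hb
        have e1 : 𝒞.e + (m + 1 - 𝒞.e) = m + 1 := by omega
        rwa [e1] at this
      have htb' : 𝒞.t * b ∉ 𝒞.W m := by
        intro h
        have := mwn_pole_le 𝒞 h
        rw [hB.2.2.1 _ _ (mwn_t_ne_zero 𝒞) hb0, mwn_pole_t, hpb] at this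
        omega
      obtain ⟨c, hc⟩ := mwn_step 𝒞 ha htb htb'
      have h1 := ih _ hc
      have hbS : b ∈ Submodule.span ℚ[X] (𝒞.W (𝒞.m₀ + 𝒞.e) : Set R) :=
        ih b (𝒞.W_mono (by omega) hb)
      have h2 : 𝒞.t * b ∈ Submodule.span ℚ[X] (𝒞.W (𝒞.m₀ + 𝒞.e) : Set R) := by
        have := Submodule.smul_mem _ (X : ℚ[X]) hbS
        rwa [mwn_smul_def, aeval_X] at this
      have h3 : c • (𝒞.t * b) ∈ Submodule.span ℚ[X] (𝒞.W (𝒞.m₀ + 𝒞.e) : Set R) := by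
        have := Submodule.smul_mem _ (C c : ℚ[X]) h2
        rwa [mwn_smul_def, aeval_C, ← Algebra.smul_def] at this
      have : a = (a - c • (𝒞.t * b)) + c • (𝒞.t * b) := by ring
      rw [this]
      exact Submodule.add_mem _ h1 h3

theorem mwn_finite (hB : BasicStatement 𝒞) :
    letI := mwnAlg 𝒞
    Module.Finite ℚ[X] R := by
  letI := mwnAlg 𝒞
  haveI := mwn_isScalarTower 𝒞
  obtain ⟨F, hF⟩ := Module.Finite.iff_fg.1 (𝒞.W_fin (𝒞.m₀ + 𝒞.e))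
  refine ⟨⟨F, ?_⟩⟩
  rw [eq_top_iff]
  intro a _
  obtain ⟨m, hm⟩ := 𝒞.W_exhaust a
  have h1 := mwn_W_le_span 𝒞 hB m a hm
  have h2 : Submodule.span ℚ[X] (𝒞.W (𝒞.m₀ + 𝒞.e) : Set R) ≤ Submodule.span ℚ[X] (F : Set R) := by
    rw [Submodule.span_le]
    intro x hx
    have hx' : x ∈ Submodule.span ℚ (F : Set R) := by rw [hF]; exact hx
    exact Submodule.span_le_restrictScalars ℚ ℚ[X] (F : Set R) hx'
  exact h2 h1

/-- `R` is free of rank `e` over `ℚ[X]` (via `X ↦ t`) -/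
theorem mwn_exists_basis (hB : BasicStatement 𝒞) :
    letI := mwnAlg 𝒞
    Nonempty (Basis (Fin 𝒞.e) ℚ[X] R) := by
  letI := mwnAlg 𝒞
  haveI := mwn_isScalarTower 𝒞
  haveI := mwn_finite 𝒞 hB
  haveI := mwn_isTorsionFree 𝒞 hB
  obtain ⟨n, b⟩ : Σ n : ℕ, Basis (Fin n) ℚ[X] R := Module.basisOfFiniteTypeTorsionFree'
  have h1 := finrank_quotient_span_eq_natDegree_norm (F := ℚ) b (mwn_t_ne_zero 𝒞)
  have h2 : Algebra.norm ℚ[X] 𝒞.t = X ^ n := by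
    have := Algebra.norm_algebraMap_of_basis b (X : ℚ[X])
    rw [mwn_algebraMap_X] at this
    simpa using this
  rw [h2, natDegree_X_pow] at h1
  have h3 : 𝒞.deg (Ideal.span {𝒞.t}) = pole 𝒞 𝒞.t := hB.2.2.2.1 _ (mwn_t_ne_zero 𝒞)
  rw [mwn_pole_t] at h3
  have hn : n = 𝒞.e := by rw [← h1, ← h3]; rfl
  subst hn
  exact ⟨b⟩

end Fermat.Agent.H50

end
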