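/-
P-MW row 690 (MW-NORM): `NormStatement 𝒞` from `BihomStatement` (and `BasicStatement 𝒞`).
-/
import Fermat.Agent.H50.MW.NormPole
import Fermat.Agent.H50.MW.NormCharpoly
import Fermat.Agent.H50.MW.NormNonvan

set_option autoImplicit false
set_option linter.unusedSectionVars false
set_option linter.unusedVariables false
set_option linter.style.haveILetI false

noncomputable section

open Module Polynomial TensorProduct
open Fermat.Agent.H92.MW

namespace Fermat.Agent.H50

/-- zero padding does not change the height of a polynomial -/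
theorem mwn_polyHeight_pad (p : ℚ[X]) (k : ℕ) (h : p.natDegree ≤ k) :
    polyHeight p = Height.logHeight (fun i : Fin (k + 1) => p.coeff i) := by
  unfold polyHeight
  obtain ⟨r, hr⟩ : ∃ r, k + 1 = (p.natDegree + 1) + r := ⟨k - p.natDegree, by omega⟩
  let e : Fin (p.natDegree + 1) ⊕ Fin r ≃ Fin (k + 1) :=
    finSumFinEquiv.trans (finCongr hr.symm)
  have h1 : (fun i : Fin (k + 1) => p.coeff i) ∘ e
      = Sum.elim (fun i : Fin (p.natDegree + 1) => p.coeff i) (0 : Fin r → ℚ) := by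
    funext s
    rcases s with i | j
    · simp [e]
    · simp only [Function.comp_apply, Sum.elim_inr, Pi.zero_apply]
      apply Polynomial.coeff_eq_zero_of_natDegree_lt
      simp [e]
      omega
  rw [← Height.logHeight_comp_equiv e, h1, Height.logHeight_sumElim_zero_eq]

theorem mwn_polyHeight_C_mul (p : ℚ[X]) (c : ℚ) (hc : c ≠ 0) (k : ℕ) (h : p.natDegree ≤ k) :
    polyHeight (C c * p) = Height.logHeight (fun i : Fin (k + 1) => p.coeff i) := by
  rw [mwn_polyHeight_pad (C c * p) k (by rwa [Polynomial.natDegree_C_mul hc])]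
  have : (fun i : Fin (k + 1) => (C c * p).coeff i) = c • (fun i : Fin (k + 1) => p.coeff i) := by
    funext i
    simp
  rw [this, Height.logHeight_smul_eq_logHeight _ hc]

/-- a homogeneous form in the first group of variables is bihomogeneous of bidegree `(d, 0)` -/
theorem mwn_isBihom_rename {N d : ℕ} {p : MvPolynomial (Fin N) ℚ} (hp : p.IsHomogeneous d) :
    IsBihom (ι₁ := Fin N) (ι₂ := Unit) d 0 (MvPolynomial.rename Sum.inl p) := by
  classical
  intro s hs
  rw [MvPolynomial.support_rename_of_injective Sum.inl_injective, Finset.mem_image] at hs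
  obtain ⟨s', hs', rfl⟩ := hs
  constructor
  · have h1 := hp.degree_eq_sum_deg_support hs'
    simp_rw [Finsupp.mapDomain_apply Sum.inl_injective]
    rw [h1]
    exact (Finset.sum_subset (Finset.subset_univ _)
      (fun i _ hi => Finsupp.notMem_support_iff.1 hi)).symm
  · refine Finset.sum_eq_zero fun j _ => ?_
    exact Finsupp.mapDomain_of_notMem_range _ _ (by simp)

variable {R : Type} [CommRing R] [Algebra ℚ R] [IsDedekindDomain R]

/-- **NORM** (row 690), from `BasicStatement` and `BihomStatement`. -/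
theorem norm_of_basic (𝒞 : MWDatum R) (hB : BasicStatement 𝒞) (hBi : BihomStatement) :
    NormStatement 𝒞 := by
  letI := mwnAlg 𝒞
  haveI := mwn_isScalarTower 𝒞
  obtain ⟨b⟩ := mwn_exists_basis 𝒞 hB
  haveI : Module.Free ℚ[X] R := Module.Free.of_basis b
  haveI : Module.Finite ℚ[X] R := Module.Finite.of_basis b
  intro k
  obtain ⟨N, hN⟩ : ∃ N, N = finrank ℚ (𝒞.W k) := ⟨_, rfl⟩
  set w : Fin (finrank ℚ (𝒞.W k)) → R :=
    fun j => ((Module.finBasis ℚ (𝒞.W k) j : 𝒞.W k) : R) with hw_def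
  have hw : LinearIndependent ℚ w :=
    (Module.finBasis ℚ (𝒞.W k)).linearIndependent.map' (𝒞.W k).subtype
      (Submodule.ker_subtype _)
  -- facts on the norm
  have hsum : ∀ x : Fin (finrank ℚ (𝒞.W k)) → ℚ, (∑ j, x j • w j) ∈ 𝒞.W k := fun x =>
    Submodule.sum_mem _ fun j _ => Submodule.smul_mem _ _ (Subtype.property _)
  have hdeg : ∀ a : R, a ∈ 𝒞.W k → a ≠ 0 → (Algebra.norm ℚ[X] a).natDegree ≤ k := by
    intro a hak ha
    have h1 := finrank_quotient_span_eq_natDegree_norm (F := ℚ) b ha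
    have h2 : 𝒞.deg (Ideal.span {a}) = pole 𝒞 a := hB.2.2.2.1 a ha
    have h3 : (Algebra.norm ℚ[X] a).natDegree = pole 𝒞 a := by rw [← h1, ← h2]; rfl
    rw [h3]
    exact mwn_pole_le 𝒞 hak
  have hcoeff : ∀ a : R, a ∈ 𝒞.W k → ∀ i, k < i → (Algebra.norm ℚ[X] a).coeff i = 0 := by
    intro a hak i hi
    by_cases ha : a = 0
    · rw [ha, Algebra.norm_zero, Polynomial.coeff_zero]
    · exact Polynomial.coeff_eq_zero_of_natDegree_lt (lt_of_le_of_lt (hdeg a hak ha) hi)
  have hhigh : ∀ i, k < i → (mwnD b w).coeff i = 0 := by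
    intro i hi
    apply MvPolynomial.funext
    intro x
    rw [mwnD_coeff_eval, map_zero]
    exact hcoeff _ (hsum x) i hi
  -- the system of forms
  set Φ : Fin (k + 1) → MvPolynomial (Fin (finrank ℚ (𝒞.W k)) ⊕ Unit) ℚ :=
    fun i => MvPolynomial.rename Sum.inl ((mwnD b w).coeff i) with hΦ_def
  have hΦ : ∀ i, IsBihom 𝒞.e 0 (Φ i) := fun i =>
    mwn_isBihom_rename (mwnD_homogeneous b w i)
  have hdom : IsDomain (QQbar ⊗[ℚ] R) := 𝒞.bar_dedekind.toIsDomain
  have hnv : ∀ (x : Fin (finrank ℚ (𝒞.W k)) → QQbar) (y : Unit → QQbar), x ≠ 0 → y ≠ 0 →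
      ∃ i, MvPolynomial.aeval (Sum.elim x y) (Φ i) ≠ 0 := by
    intro x y hx _
    have h1 := mwnD_nonvanish b w hdom hw x hx
    obtain ⟨i, hi⟩ : ∃ i, ((mwnD b w).map ((MvPolynomial.aeval x :
        MvPolynomial (Fin (finrank ℚ (𝒞.W k))) ℚ →ₐ[ℚ] QQbar) :
          MvPolynomial (Fin (finrank ℚ (𝒞.W k))) ℚ →+* QQbar)).coeff i ≠ 0 := by
      by_contra hcon
      apply h1
      ext i
      rw [Polynomial.coeff_zero]
      by_contra hi
      exact hcon ⟨i, hi⟩
    rw [Polynomial.coeff_map] at hi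
    have hik : i ≤ k := by
      by_contra hlt
      rw [hhigh i (not_le.1 hlt)] at hi
      exact hi (map_zero _)
    refine ⟨⟨i, Nat.lt_succ_of_le hik⟩, ?_⟩
    simp only [hΦ_def, MvPolynomial.aeval_rename]
    exact hi
  obtain ⟨C₀, hC₀⟩ := hBi (Fin (finrank ℚ (𝒞.W k))) Unit (Fin (k + 1)) 𝒞.e 0 Φ hΦ hnv
  refine ⟨C₀, fun a ha => ?_⟩
  have ha' : (a : R) ≠ 0 := fun h => ha (Subtype.ext h)
  -- coordinates
  have hx0 : coordVec 𝒞 k a ≠ 0 := by
    intro h
    apply ha
    have h1 : (Module.finBasis ℚ (𝒞.W k)).repr a = 0 := by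
      ext j
      exact congrFun h j
    exact (LinearEquiv.map_eq_zero_iff _).1 h1
  have hax : (a : R) = ∑ j, coordVec 𝒞 k a j • w j := by
    have h1 := (Module.finBasis ℚ (𝒞.W k)).sum_repr a
    have h2 := congrArg (fun z : 𝒞.W k => (z : R)) h1
    simp only [Submodule.coe_sum, Submodule.coe_smul] at h2
    exact h2.symm
  have hy0 : (fun _ : Unit => (1 : ℚ)) ≠ 0 := by
    intro h
    exact one_ne_zero (congrFun h ())
  have hmain := hC₀ (coordVec 𝒞 k a) (fun _ => 1) hx0 hy0
  -- the height of the ideal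
  haveI hfin : Module.Finite ℚ (R ⧸ Ideal.span {(a : R)}) :=
    hB.1 _ (Ideal.span_singleton_eq_bot.not.2 ha')
  obtain ⟨c, hc, hcp⟩ := mwn_charpoly_eq_norm b ha'
  have htc : 𝒞.tCharpoly (Ideal.span {(a : R)}) = C c * Algebra.norm ℚ[X] (a : R) := by
    unfold MWDatum.tCharpoly
    rw [dif_pos hfin, ← hcp, mwn_algebraMap_X]
  have hhT : 𝒞.hT (Ideal.span {(a : R)})
      = Height.logHeight (fun i : Fin (k + 1) => (Algebra.norm ℚ[X] (a : R)).coeff i) := by
    unfold MWDatum.hT
    rw [htc]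
    exact mwn_polyHeight_C_mul _ c hc k (hdeg _ a.2 ha')
  have hev : (fun i : Fin (k + 1) =>
      MvPolynomial.eval (Sum.elim (coordVec 𝒞 k a) fun _ => (1 : ℚ)) (Φ i))
      = fun i : Fin (k + 1) => (Algebra.norm ℚ[X] (a : R)).coeff i := by
    funext i
    simp only [hΦ_def, MvPolynomial.eval_rename]
    have : (Sum.elim (coordVec 𝒞 k a) fun _ : Unit => (1 : ℚ)) ∘ Sum.inl = coordVec 𝒞 k a := by
      funext j; rfl
    rw [this, mwnD_coeff_eval, ← hax]
  rw [hev, ← hhT] at hmain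
  simpa using hmain

/-- **NORM** (row 690) in the form of the row: `BihomStatement → NormStatement 𝒞`, given
`BasicStatement 𝒞`. -/
theorem mwNorm (𝒞 : MWDatum R) (hB : BasicStatement 𝒞) : BihomStatement → NormStatement 𝒞 :=
  fun hBi => norm_of_basic 𝒞 hB hBi

end Fermat.Agent.H50

end
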